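/-
CELL-S (S33) / NODAL FRAME, node G² (helper87, author of GH/G6/Generic): **non-special charts on a
two-component nodal fibre** — the "RISK item" of the port of GATE-H to the two-valuation frame.

WARNING (why this is not a copy of `GH/G6/Generic.finite_jump`): on a reducible fibre a SPECIAL
divisor may have infinitely many jumps (`E = (E₁, 0)` with `deg E₁` large: every place of the first
component jumps, and the speciality index is the genus of the second component).  What survives is:

  *a special divisor cannot have infinitely many jumps on BOTH components*,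

and this is enough for the greedy construction; the distribution of the chart points between the two
components is an OUTPUT of the construction, not an input.

* Part A (`exists_greedy`): the abstract combinatorial statement, for any "jump calculus" on finite
  subsets of a two-sided set of points (hypothesis form, no structure).
* Part B: the glued Riemann–Roch space `gluedSpace P Q E₁ E₂ ⊆ F₁ × F₂` of two function fields
  glued along nodes `P j ∈ Place k F₁`, `Q j ∈ Place k F₂` of degree one (value form of the glueing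
  condition: `∃ c, f₁(P j) = c = f₂(Q j)`), its jump calculus, and
  `exists_nonspecial_glued` : from Riemann's theorem for the glued spaces in the shape
  `c ≤ #T₁ → c ≤ #T₂ → l(ΣT₁, ΣT₂) = #T₁ + #T₂ + 1 - g` there are, for every `n ≤ g` and outside any
  finite sets of places, `T₁`, `T₂` with `#T₁ + #T₂ = n` and `l(ΣT₁, ΣT₂) = 1`.
-/
import Mathlib
import Fermat.Agent.GH.G6.Generic
import Fermat.Agent.GK.NodalGraded

set_option autoImplicit false

noncomputable section

open AlgebraicCurve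

namespace Fermat.Agent.GS.Nod

/-! ### Part A: the abstract greedy lemma -/

section Abstract

variable {𝒬 : Type*} [DecidableEq 𝒬]

/-- independence of jumps: adding `#U` jumps of `T` raises `l` by at least `#U`. -/
theorem card_jumps_le (l : Finset 𝒬 → ℕ) (jump : Finset 𝒬 → 𝒬 → Prop)
    (hlt : ∀ T Q, Q ∉ T → jump T Q → l T < l (insert Q T))
    (hmono : ∀ T T' Q, T ⊆ T' → Q ∉ T' → jump T Q → jump T' Q)
    (T U : Finset 𝒬) (hTU : Disjoint T U) (hU : ∀ Q ∈ U, jump T Q) :
    l T + U.card ≤ l (T ∪ U) := by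
  induction U using Finset.induction_on with
  | empty => simp
  | insert a U ha ih =>
    rw [Finset.disjoint_insert_right] at hTU
    have h1 := ih hTU.2 fun Q hQ => hU Q (Finset.mem_insert_of_mem hQ)
    have haTU : a ∉ T ∪ U := by
      rw [Finset.mem_union, not_or]
      exact ⟨hTU.1, ha⟩
    have hj : jump (T ∪ U) a :=
      hmono T (T ∪ U) a Finset.subset_union_left haTU (hU a (Finset.mem_insert_self a U))
    have h2 := hlt (T ∪ U) a haTU hj
    rw [Finset.union_insert, Finset.card_insert_of_notMem ha]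
    omega

/-- **the greedy lemma**: if `l = #T + 1 - g` as soon as BOTH sides of `T` have at least `c` points
(for `T` off a fixed finite forbidden set `S₀`), both sides are infinite, jumps persist and non-jumps
do not change `l`, then for every `n ≤ g` and every finite `S ⊇ S₀` there is `T` with `#T = n`,
`T ∩ S = ∅` and `l T = l ∅`. -/
theorem exists_greedy (l : Finset 𝒬 → ℕ) (side : 𝒬 → Bool) (jump : Finset 𝒬 → 𝒬 → Prop)
    (heq : ∀ T Q, Q ∉ T → ¬ jump T Q → l (insert Q T) = l T)
    (hlt : ∀ T Q, Q ∉ T → jump T Q → l T < l (insert Q T))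
    (hmono : ∀ T T' Q, T ⊆ T' → Q ∉ T' → jump T Q → jump T' Q)
    {g : ℤ} {c : ℕ} (S₀ : Finset 𝒬)
    (rr : ∀ T : Finset 𝒬, Disjoint T S₀ → c ≤ (T.filter fun Q => side Q = true).card →
      c ≤ (T.filter fun Q => side Q = false).card → (l T : ℤ) = T.card + 1 - g)
    (hinf : ∀ b : Bool, {Q : 𝒬 | side Q = b}.Infinite)
    (h0 : l ∅ = 1) (S : Finset 𝒬) (hS : S₀ ⊆ S) (n : ℕ) (hn : (n : ℤ) ≤ g) :
    ∃ T : Finset 𝒬, T.card = n ∧ Disjoint T S ∧ l T = 1 := by
  induction n with
  | zero => exact ⟨∅, rfl, Finset.disjoint_empty_left S, h0⟩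
  | succ n ih =>
    obtain ⟨T, hTc, hTS, hT1⟩ := ih (by push_cast at hn; omega)
    -- on one side there are only finitely many jumps of `T`
    have hside : ∃ b : Bool, {Q : 𝒬 | side Q = b ∧ Q ∉ T ∧ Q ∉ S₀ ∧ jump T Q}.Finite := by
      by_contra hno
      push Not at hno
      have ht : Set.Infinite _ := hno true
      have hf : Set.Infinite _ := hno false
      obtain ⟨A, hAs, hAc⟩ := ht.exists_subset_card_eq c
      obtain ⟨B, hBs, hBc⟩ := hf.exists_subset_card_eq c
      have hAB : Disjoint A B := by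
        rw [Finset.disjoint_left]
        intro Q hQA hQB
        have h1 := (hAs hQA).1
        have h2 := (hBs hQB).1
        rw [h1] at h2
        exact Bool.noConfusion h2
      have hTU : Disjoint T (A ∪ B) := by
        rw [Finset.disjoint_union_right]
        constructor
        · rw [Finset.disjoint_right]
          exact fun Q hQ => (hAs hQ).2.1
        · rw [Finset.disjoint_right]
          exact fun Q hQ => (hBs hQ).2.1
      have hjumps : ∀ Q ∈ A ∪ B, jump T Q := by
        intro Q hQ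
        rcases Finset.mem_union.mp hQ with h | h
        · exact (hAs h).2.2.2
        · exact (hBs h).2.2.2
      have hdisj : Disjoint (T ∪ (A ∪ B)) S₀ := by
        rw [Finset.disjoint_union_left, Finset.disjoint_union_left]
        refine ⟨Finset.disjoint_of_subset_right hS hTS, ?_, ?_⟩
        · rw [Finset.disjoint_left]
          exact fun Q hQ => (hAs hQ).2.2.1
        · rw [Finset.disjoint_left]
          exact fun Q hQ => (hBs hQ).2.2.1
      have h1 := card_jumps_le l jump hlt hmono T (A ∪ B) hTU hjumps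
      have hcardU : (A ∪ B).card = 2 * c := by
        rw [Finset.card_union_of_disjoint hAB, hAc, hBc]; ring
      have hct : c ≤ ((T ∪ (A ∪ B)).filter fun Q => side Q = true).card := by
        rw [← hAc]
        refine Finset.card_le_card fun Q hQ => ?_
        rw [Finset.mem_filter]
        exact ⟨Finset.mem_union_right _ (Finset.mem_union_left _ hQ), (hAs hQ).1⟩
      have hcf : c ≤ ((T ∪ (A ∪ B)).filter fun Q => side Q = false).card := by
        rw [← hBc]
        refine Finset.card_le_card fun Q hQ => ?_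
        rw [Finset.mem_filter]
        exact ⟨Finset.mem_union_right _ (Finset.mem_union_right _ hQ), (hBs hQ).1⟩
      have h2 := rr (T ∪ (A ∪ B)) hdisj hct hcf
      rw [Finset.card_union_of_disjoint hTU, hcardU, hTc] at h2
      rw [hcardU, hT1] at h1
      have h1' : ((1 + 2 * c : ℕ) : ℤ) ≤ (l (T ∪ (A ∪ B)) : ℤ) := by exact_mod_cast h1
      push_cast at h1' h2 hn
      omega
    obtain ⟨b, hb⟩ := hside
    obtain ⟨Q, hQb, hQ⟩ := ((hinf b).sdiff (hb.toFinset ∪ S ∪ T).finite_toSet).nonempty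
    rw [Finset.mem_coe, Finset.mem_union, Finset.mem_union, Set.Finite.mem_toFinset, not_or,
      not_or] at hQ
    obtain ⟨⟨hQJ, hQS⟩, hQT⟩ := hQ
    have hnj : ¬ jump T Q := fun hj => hQJ ⟨hQb, hQT, fun h => hQS (hS h), hj⟩
    refine ⟨insert Q T, by rw [Finset.card_insert_of_notMem hQT, hTc], ?_, ?_⟩
    · rw [Finset.disjoint_insert_left]
      exact ⟨hQS, hTS⟩
    · rw [heq T Q hQT hnj, hT1]

end Abstract

/-! ### Part B: glued Riemann–Roch spaces -/

section Glued

open Fermat.Agent.RRh45 Fermat.Agent.GK.NodalGraded Fermat.Agent.GH.G6 Fermat.Agent.GJ.S37MinDiv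

variable {k F₁ F₂ : Type*} [Field k] [Field F₁] [Field F₂] [Algebra k F₁] [Algebra k F₂]
variable {ι : Type*}
variable (P : ι → Place k F₁) (Q : ι → Place k F₂)

/-- the Riemann–Roch space of the nodal curve, inside `F₁ × F₂`, glueing condition in value form:
`f₁(P j) = f₂(Q j)` for every node `j` (nodes of degree one). -/
def gluedSpace (E₁ : Divisor k F₁) (E₂ : Divisor k F₂) : Submodule k (F₁ × F₂) where
  carrier := {z | z.1 ∈ riemannRochSpace E₁ ∧ z.2 ∈ riemannRochSpace E₂ ∧
    ∀ j, ∃ c : k, ValueAt (P j) z.1 c ∧ ValueAt (Q j) z.2 c}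
  zero_mem' := ⟨zero_mem _, zero_mem _, fun _ => ⟨0, valueAt_zero, valueAt_zero⟩⟩
  add_mem' := by
    rintro z w ⟨hz1, hz2, hz⟩ ⟨hw1, hw2, hw⟩
    refine ⟨add_mem hz1 hw1, add_mem hz2 hw2, fun j => ?_⟩
    obtain ⟨a, ha1, ha2⟩ := hz j
    obtain ⟨b, hb1, hb2⟩ := hw j
    exact ⟨a + b, ha1.add hb1, ha2.add hb2⟩
  smul_mem' := by
    rintro r z ⟨hz1, hz2, hz⟩
    refine ⟨Submodule.smul_mem _ r hz1, Submodule.smul_mem _ r hz2, fun j => ?_⟩
    obtain ⟨a, ha1, ha2⟩ := hz j
    exact ⟨r * a, ha1.smul r, ha2.smul r⟩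

variable {P Q}

theorem mem_gluedSpace {E₁ : Divisor k F₁} {E₂ : Divisor k F₂} {z : F₁ × F₂} :
    z ∈ gluedSpace P Q E₁ E₂ ↔ z.1 ∈ riemannRochSpace E₁ ∧ z.2 ∈ riemannRochSpace E₂ ∧
      ∀ j, ∃ c : k, ValueAt (P j) z.1 c ∧ ValueAt (Q j) z.2 c := Iff.rfl

theorem gluedSpace_mono {E₁ E₁' : Divisor k F₁} {E₂ E₂' : Divisor k F₂} (h₁ : E₁ ≤ E₁')
    (h₂ : E₂ ≤ E₂') : gluedSpace P Q E₁ E₂ ≤ gluedSpace P Q E₁' E₂' := fun _ hz =>
  ⟨riemannRochSpace_mono h₁ hz.1, riemannRochSpace_mono h₂ hz.2.1, hz.2.2⟩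

theorem gluedSpace_le_prod (E₁ : Divisor k F₁) (E₂ : Divisor k F₂) :
    gluedSpace P Q E₁ E₂ ≤ (riemannRochSpace E₁).prod (riemannRochSpace E₂) := fun _ hz =>
  ⟨hz.1, hz.2.1⟩

/-- the constants lie in the glued space of effective divisors. -/
theorem one_mem_gluedSpace {E₁ : Divisor k F₁} {E₂ : Divisor k F₂} (h₁ : 0 ≤ E₁) (h₂ : 0 ≤ E₂) :
    (1 : F₁ × F₂) ∈ gluedSpace P Q E₁ E₂ :=
  ⟨one_mem_riemannRochSpace h₁, one_mem_riemannRochSpace h₂, fun _ => ⟨1, valueAt_one, valueAt_one⟩⟩

/-- a jump of the glued space on the first component. -/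
def IsJump₁ (E₁ : Divisor k F₁) (E₂ : Divisor k F₂) (v : Place k F₁) : Prop :=
  ¬ gluedSpace P Q (E₁ + Finsupp.single v 1) E₂ ≤ gluedSpace P Q E₁ E₂

/-- a jump of the glued space on the second component. -/
def IsJump₂ (E₁ : Divisor k F₁) (E₂ : Divisor k F₂) (w : Place k F₂) : Prop :=
  ¬ gluedSpace P Q E₁ (E₂ + Finsupp.single w 1) ≤ gluedSpace P Q E₁ E₂

theorem eq_of_not_isJump₁ {E₁ : Divisor k F₁} {E₂ : Divisor k F₂} {v : Place k F₁}
    (h : ¬ IsJump₁ (P := P) (Q := Q) E₁ E₂ v) :
    gluedSpace P Q (E₁ + Finsupp.single v 1) E₂ = gluedSpace P Q E₁ E₂ :=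
  le_antisymm (not_not.mp h) (gluedSpace_mono (le_add_single E₁ v) le_rfl)

theorem eq_of_not_isJump₂ {E₁ : Divisor k F₁} {E₂ : Divisor k F₂} {w : Place k F₂}
    (h : ¬ IsJump₂ (P := P) (Q := Q) E₁ E₂ w) :
    gluedSpace P Q E₁ (E₂ + Finsupp.single w 1) = gluedSpace P Q E₁ E₂ :=
  le_antisymm (not_not.mp h) (gluedSpace_mono le_rfl (le_add_single E₂ w))

/-- a jump on the first component is witnessed by a pair whose first entry has a pole of EXACT
order `E₁ v + 1` at `v`. -/
theorem IsJump₁.exists_pole {E₁ : Divisor k F₁} {E₂ : Divisor k F₂} {v : Place k F₁}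
    (h : IsJump₁ (P := P) (Q := Q) E₁ E₂ v) :
    ∃ z ∈ gluedSpace P Q (E₁ + Finsupp.single v 1) E₂, z.1 ≠ 0 ∧ v.ord z.1 = -E₁ v - 1 := by
  obtain ⟨z, hz, hzE⟩ := SetLike.not_le_iff_exists.mp h
  have hz1 : z.1 ∉ riemannRochSpace E₁ := fun h1 => hzE ⟨h1, hz.2.1, hz.2.2⟩
  have hf0 : z.1 ≠ 0 := fun h0 => hz1 (h0 ▸ zero_mem _)
  refine ⟨z, hz, hf0, ?_⟩
  have hf := hz.1
  rw [mem_riemannRochSpace_iff] at hf hz1
  push Not at hz1
  obtain ⟨w, -, hw⟩ := hz1
  have hw' := (hf w).resolve_left hf0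
  by_cases hwv : w = v
  · subst hwv
    rw [Finsupp.add_apply, Finsupp.single_eq_same] at hw'
    omega
  · rw [Finsupp.add_apply, Finsupp.single_eq_of_ne hwv] at hw'
    omega

theorem IsJump₂.exists_pole {E₁ : Divisor k F₁} {E₂ : Divisor k F₂} {w : Place k F₂}
    (h : IsJump₂ (P := P) (Q := Q) E₁ E₂ w) :
    ∃ z ∈ gluedSpace P Q E₁ (E₂ + Finsupp.single w 1), z.2 ≠ 0 ∧ w.ord z.2 = -E₂ w - 1 := by
  obtain ⟨z, hz, hzE⟩ := SetLike.not_le_iff_exists.mp h
  have hz2 : z.2 ∉ riemannRochSpace E₂ := fun h2 => hzE ⟨hz.1, h2, hz.2.2⟩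
  have hf0 : z.2 ≠ 0 := fun h0 => hz2 (h0 ▸ zero_mem _)
  refine ⟨z, hz, hf0, ?_⟩
  have hf := hz.2.1
  rw [mem_riemannRochSpace_iff] at hf hz2
  push Not at hz2
  obtain ⟨u, -, hu⟩ := hz2
  have hu' := (hf u).resolve_left hf0
  by_cases huw : u = w
  · subst huw
    rw [Finsupp.add_apply, Finsupp.single_eq_same] at hu'
    omega
  · rw [Finsupp.add_apply, Finsupp.single_eq_of_ne huw] at hu'
    omega

/-- jumps persist when the divisors grow away from the place. -/
theorem IsJump₁.mono {E₁ E₁' : Divisor k F₁} {E₂ E₂' : Divisor k F₂} {v : Place k F₁}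
    (h : IsJump₁ (P := P) (Q := Q) E₁ E₂ v) (h₁ : E₁ ≤ E₁') (h₂ : E₂ ≤ E₂') (hv : E₁' v = E₁ v) :
    IsJump₁ (P := P) (Q := Q) E₁' E₂' v := by
  obtain ⟨z, hz, hf0, hord⟩ := h.exists_pole
  intro hle
  have hzE : z ∈ gluedSpace P Q E₁' E₂' := hle (gluedSpace_mono (add_le_add_left h₁ _) h₂ hz)
  have := (mem_riemannRochSpace_iff.mp hzE.1 v).resolve_left hf0
  omega

theorem IsJump₂.mono {E₁ E₁' : Divisor k F₁} {E₂ E₂' : Divisor k F₂} {w : Place k F₂}
    (h : IsJump₂ (P := P) (Q := Q) E₁ E₂ w) (h₁ : E₁ ≤ E₁') (h₂ : E₂ ≤ E₂') (hw : E₂' w = E₂ w) :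
    IsJump₂ (P := P) (Q := Q) E₁' E₂' w := by
  obtain ⟨z, hz, hf0, hord⟩ := h.exists_pole
  intro hle
  have hzE : z ∈ gluedSpace P Q E₁' E₂' := hle (gluedSpace_mono h₁ (add_le_add_left h₂ _) hz)
  have := (mem_riemannRochSpace_iff.mp hzE.2.1 w).resolve_left hf0
  omega

section Finite

variable [FiniteResidues k F₁] [HasPrincipalDivisors k F₁] [Nonempty (Place k F₁)]
variable [FiniteResidues k F₂] [HasPrincipalDivisors k F₂] [Nonempty (Place k F₂)]

instance finiteDimensional_gluedSpace (E₁ : Divisor k F₁) (E₂ : Divisor k F₂) :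
    FiniteDimensional k (gluedSpace P Q E₁ E₂) := by
  have h : ((riemannRochSpace E₁).prod (riemannRochSpace E₂)).FG :=
    Submodule.FG.prod (Module.Finite.iff_fg.mp inferInstance) (Module.Finite.iff_fg.mp inferInstance)
  haveI : Module.Finite k ((riemannRochSpace E₁).prod (riemannRochSpace E₂)) :=
    Module.Finite.iff_fg.mpr h
  exact Submodule.finiteDimensional_of_le (gluedSpace_le_prod E₁ E₂)

theorem IsJump₁.finrank_lt {E₁ : Divisor k F₁} {E₂ : Divisor k F₂} {v : Place k F₁}
    (h : IsJump₁ (P := P) (Q := Q) E₁ E₂ v) :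
    Module.finrank k (gluedSpace P Q E₁ E₂) <
      Module.finrank k (gluedSpace P Q (E₁ + Finsupp.single v 1) E₂) :=
  Submodule.finrank_lt_finrank_of_lt
    (lt_of_le_not_ge (gluedSpace_mono (le_add_single E₁ v) le_rfl) h)

theorem IsJump₂.finrank_lt {E₁ : Divisor k F₁} {E₂ : Divisor k F₂} {w : Place k F₂}
    (h : IsJump₂ (P := P) (Q := Q) E₁ E₂ w) :
    Module.finrank k (gluedSpace P Q E₁ E₂) <
      Module.finrank k (gluedSpace P Q E₁ (E₂ + Finsupp.single w 1)) :=
  Submodule.finrank_lt_finrank_of_lt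
    (lt_of_le_not_ge (gluedSpace_mono le_rfl (le_add_single E₂ w)) h)

/-! ### The chart supply on the nodal fibre -/

variable (P Q)

/-- the glued dimension of the reduced divisors `(Σ_{T.toLeft} v, Σ_{T.toRight} w)`. -/
def lGlued (T : Finset (Place k F₁ ⊕ Place k F₂)) : ℕ :=
  Module.finrank k (gluedSpace P Q (sumDiv T.toLeft) (sumDiv T.toRight))

/-- jumps of the glued space at a point of either component. -/
def jumpGlued (T : Finset (Place k F₁ ⊕ Place k F₂)) : Place k F₁ ⊕ Place k F₂ → Prop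
  | Sum.inl v => IsJump₁ (P := P) (Q := Q) (sumDiv T.toLeft) (sumDiv T.toRight) v
  | Sum.inr w => IsJump₂ (P := P) (Q := Q) (sumDiv T.toLeft) (sumDiv T.toRight) w

variable {P Q}

omit [FiniteResidues k F₁] [HasPrincipalDivisors k F₁] [Nonempty (Place k F₁)]
  [FiniteResidues k F₂] [HasPrincipalDivisors k F₂] [Nonempty (Place k F₂)] in
theorem card_filter_isLeft (T : Finset (Place k F₁ ⊕ Place k F₂)) :
    (T.filter fun x => Sum.isLeft x = true).card = T.toLeft.card := by
  classical
  have : (T.filter fun x => Sum.isLeft x = true) = T.toLeft.map Function.Embedding.inl := by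
    ext x
    cases x <;> simp
  rw [this, Finset.card_map]

omit [FiniteResidues k F₁] [HasPrincipalDivisors k F₁] [Nonempty (Place k F₁)]
  [FiniteResidues k F₂] [HasPrincipalDivisors k F₂] [Nonempty (Place k F₂)] in
theorem card_filter_isRight (T : Finset (Place k F₁ ⊕ Place k F₂)) :
    (T.filter fun x => Sum.isLeft x = false).card = T.toRight.card := by
  classical
  have : (T.filter fun x => Sum.isLeft x = false) = T.toRight.map Function.Embedding.inr := by
    ext x
    cases x <;> simp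
  rw [this, Finset.card_map]

/-- **G² (chart supply on the nodal fibre)**: from Riemann's theorem for the glued spaces of reduced
divisors off the finite sets `S₁ ⊇ {P j}`, `S₂ ⊇ {Q j}` — valid as soon as BOTH components carry at
least `c` points — there are, for every `n ≤ g`, finite sets `T₁`, `T₂` of places off `S₁`, `S₂` with
`#T₁ + #T₂ = n` and glued `l(Σ T₁, Σ T₂) = 1`. -/
theorem exists_nonspecial_glued [Infinite (Place k F₁)] [Infinite (Place k F₂)] {g : ℤ} {c : ℕ}
    (S₁ : Finset (Place k F₁)) (S₂ : Finset (Place k F₂))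
    (rr : ∀ (T₁ : Finset (Place k F₁)) (T₂ : Finset (Place k F₂)), Disjoint T₁ S₁ →
      Disjoint T₂ S₂ → c ≤ T₁.card → c ≤ T₂.card →
      (Module.finrank k (gluedSpace P Q (sumDiv T₁) (sumDiv T₂)) : ℤ) =
        T₁.card + T₂.card + 1 - g)
    (h0 : Module.finrank k (gluedSpace P Q (0 : Divisor k F₁) (0 : Divisor k F₂)) = 1)
    (n : ℕ) (hn : (n : ℤ) ≤ g) :
    ∃ (T₁ : Finset (Place k F₁)) (T₂ : Finset (Place k F₂)), T₁.card + T₂.card = n ∧
      Disjoint T₁ S₁ ∧ Disjoint T₂ S₂ ∧
      Module.finrank k (gluedSpace P Q (sumDiv T₁) (sumDiv T₂)) = 1 := by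
  classical
  have key := exists_greedy (𝒬 := Place k F₁ ⊕ Place k F₂) (lGlued P Q) Sum.isLeft (jumpGlued P Q)
    ?_ ?_ ?_ (g := g) (c := c) (S₁.disjSum S₂) ?_ ?_ ?_ (S₁.disjSum S₂) subset_rfl n hn
  · obtain ⟨T, hTc, hTS, hT1⟩ := key
    refine ⟨T.toLeft, T.toRight, by rw [Finset.card_toLeft_add_card_toRight, hTc], ?_, ?_, hT1⟩
    · rw [Finset.disjoint_left]
      intro v hv hvS
      exact Finset.disjoint_left.mp hTS (Finset.mem_toLeft.mp hv) (Finset.inl_mem_disjSum.mpr hvS)
    · rw [Finset.disjoint_left]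
      intro w hw hwS
      exact Finset.disjoint_left.mp hTS (Finset.mem_toRight.mp hw) (Finset.inr_mem_disjSum.mpr hwS)
  · -- non-jumps do not change `l`
    rintro T (v | w) hT hj
    · have hv : v ∉ T.toLeft := fun h => hT (Finset.mem_toLeft.mp h)
      show Module.finrank k (gluedSpace P Q _ _) = Module.finrank k (gluedSpace P Q _ _)
      rw [Finset.toLeft_insert_inl, Finset.toRight_insert_inl, sumDiv_insert hv,
        eq_of_not_isJump₁ hj]
    · have hw : w ∉ T.toRight := fun h => hT (Finset.mem_toRight.mp h)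
      show Module.finrank k (gluedSpace P Q _ _) = Module.finrank k (gluedSpace P Q _ _)
      rw [Finset.toLeft_insert_inr, Finset.toRight_insert_inr, sumDiv_insert hw,
        eq_of_not_isJump₂ hj]
  · -- jumps raise `l`
    rintro T (v | w) hT hj
    · have hv : v ∉ T.toLeft := fun h => hT (Finset.mem_toLeft.mp h)
      show Module.finrank k (gluedSpace P Q _ _) < Module.finrank k (gluedSpace P Q _ _)
      rw [Finset.toLeft_insert_inl, Finset.toRight_insert_inl, sumDiv_insert hv]
      exact IsJump₁.finrank_lt hj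
    · have hw : w ∉ T.toRight := fun h => hT (Finset.mem_toRight.mp h)
      show Module.finrank k (gluedSpace P Q _ _) < Module.finrank k (gluedSpace P Q _ _)
      rw [Finset.toLeft_insert_inr, Finset.toRight_insert_inr, sumDiv_insert hw]
      exact IsJump₂.finrank_lt hj
  · -- jumps persist
    rintro T T' (v | w) hTT' hT' hj
    · have hv : v ∉ T'.toLeft := fun h => hT' (Finset.mem_toLeft.mp h)
      exact IsJump₁.mono hj (sumDiv_mono (Finset.toLeft_subset_toLeft hTT'))
        (sumDiv_mono (Finset.toRight_subset_toRight hTT'))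
        (by rw [sumDiv_apply_of_notMem hv,
          sumDiv_apply_of_notMem fun h => hv (Finset.toLeft_subset_toLeft hTT' h)])
    · have hw : w ∉ T'.toRight := fun h => hT' (Finset.mem_toRight.mp h)
      exact IsJump₂.mono hj (sumDiv_mono (Finset.toLeft_subset_toLeft hTT'))
        (sumDiv_mono (Finset.toRight_subset_toRight hTT'))
        (by rw [sumDiv_apply_of_notMem hw,
          sumDiv_apply_of_notMem fun h => hw (Finset.toRight_subset_toRight hTT' h)])
  · -- Riemann on the glued spaces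
    intro T hTS hc1 hc2
    rw [card_filter_isLeft] at hc1
    rw [card_filter_isRight] at hc2
    have h1 : Disjoint T.toLeft S₁ := by
      rw [Finset.disjoint_left]
      intro v hv hvS
      exact Finset.disjoint_left.mp hTS (Finset.mem_toLeft.mp hv) (Finset.inl_mem_disjSum.mpr hvS)
    have h2 : Disjoint T.toRight S₂ := by
      rw [Finset.disjoint_left]
      intro w hw hwS
      exact Finset.disjoint_left.mp hTS (Finset.mem_toRight.mp hw) (Finset.inr_mem_disjSum.mpr hwS)
    have := rr T.toLeft T.toRight h1 h2 hc1 hc2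
    rw [← Finset.card_toLeft_add_card_toRight (u := T)]
    push_cast
    exact this
  · -- both sides are infinite
    rintro (_ | _)
    · have : {x : Place k F₁ ⊕ Place k F₂ | Sum.isLeft x = false} = Set.range Sum.inr := by
        ext x
        cases x <;> simp
      rw [this]
      exact Set.infinite_range_of_injective Sum.inr_injective
    · have : {x : Place k F₁ ⊕ Place k F₂ | Sum.isLeft x = true} = Set.range Sum.inl := by
        ext x
        cases x <;> simp
      rw [this]
      exact Set.infinite_range_of_injective Sum.inl_injective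
  · -- `l ∅ = 1`
    show Module.finrank k (gluedSpace P Q _ _) = 1
    have e1 : (∅ : Finset (Place k F₁ ⊕ Place k F₂)).toLeft = ∅ := by ext; simp
    have e2 : (∅ : Finset (Place k F₁ ⊕ Place k F₂)).toRight = ∅ := by ext; simp
    rw [e1, e2, sumDiv_empty, sumDiv_empty]
    exact h0

/-- `l = 1` passes to sub-families (the constants are always there). -/
theorem finrank_gluedSpace_eq_one_of_subset {T₁ T₁' : Finset (Place k F₁)}
    {T₂ T₂' : Finset (Place k F₂)} (h₁ : T₁' ⊆ T₁) (h₂ : T₂' ⊆ T₂)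
    (hT : Module.finrank k (gluedSpace P Q (sumDiv T₁) (sumDiv T₂)) = 1) :
    Module.finrank k (gluedSpace P Q (sumDiv T₁') (sumDiv T₂')) = 1 := by
  have h1 : Module.finrank k (gluedSpace P Q (sumDiv T₁') (sumDiv T₂')) ≤
      Module.finrank k (gluedSpace P Q (sumDiv T₁) (sumDiv T₂)) :=
    Submodule.finrank_mono (gluedSpace_mono (sumDiv_mono h₁) (sumDiv_mono h₂))
  have h2 : 0 < Module.finrank k (gluedSpace P Q (sumDiv T₁') (sumDiv T₂')) := by
    have : Nontrivial (gluedSpace P Q (sumDiv T₁') (sumDiv T₂')) :=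
      ⟨⟨⟨1, one_mem_gluedSpace (sumDiv_nonneg T₁') (sumDiv_nonneg T₂')⟩, 0,
        fun h => one_ne_zero (congrArg Subtype.val h)⟩⟩
    exact Module.finrank_pos
  omega

end Finite

end Glued

end Fermat.Agent.GS.Nod
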