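/-
CELL-S (S33) / NODAL FRAME, node G²-RR (helper34, author of GK/NodalRR, GK/NodalFibre,
GK/NodalGraded): **Riemann's theorem for the glued spaces** `gluedSpace P Q E₁ E₂ ⊆ F₁ × F₂` of
helper87's `GS/Nod/Generic.lean`, i.e. the two binders `rr`, `h0` of `exists_nonspecial_glued`.

* `gluedSpace_eq_T` : `gluedSpace P Q E₁ E₂ = NodalGraded.T P Q E₁ E₂ 1`;
* `gluedGenus` : `g₁ + g₂ + #ι + 1 - ℓ₁(0) - ℓ₂(0)` (arithmetic genus of the nodal curve);
* `riemann_gluedSpace` : there is `c` such that for all `E₁`, `E₂` avoiding the nodes with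
  `c ≤ deg E₁`, `c ≤ deg E₂`: `l(E₁, E₂) = deg E₁ + deg E₂ + 1 - gluedGenus`;
* `finrank_gluedSpace_zero` : `l(0, 0) = 1` as soon as there is at least one node;
* `gluedGenus_eq` : with at least one node, `gluedGenus = g₁ + g₂ + #ι - 1`;
* `riemann_sumDiv` : the binder `rr` of `exists_nonspecial_glued`, verbatim;
* `exists_nonspecial_glued_of_nodes` : the chart supply on the nodal fibre with no binder left.
-/
import Mathlib
import Fermat.Agent.GS.Nod.Generic
import Fermat.Agent.GH.G6.Family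

set_option autoImplicit false

noncomputable section

open AlgebraicCurve

namespace Fermat.Agent.GS.Nod

open Fermat.Agent.RRh45 Fermat.Agent.RR Fermat.Agent.GK.NodalGraded Fermat.Agent.GK.NodalRR
open Fermat.Agent.GK.EvalK Fermat.Agent.GK.Glue Fermat.Agent.S24 Fermat.Agent.GH.G6
open Fermat.Agent.GJ.S37MinDiv

section GluedRiemann

variable {k F₁ F₂ : Type*} [Field k] [Field F₁] [Field F₂] [Algebra k F₁] [Algebra k F₂]
variable {ι : Type*}
variable {P : ι → Place k F₁} {Q : ι → Place k F₂}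

/-- helper87's glued space is the degree-one piece of the graded glued spaces of `GK/NodalGraded`. -/
theorem gluedSpace_eq_T (E₁ : Divisor k F₁) (E₂ : Divisor k F₂) :
    gluedSpace P Q E₁ E₂ = T P Q E₁ E₂ 1 := by
  ext z
  rw [mem_gluedSpace, mem_T, one_nsmul, one_nsmul]

variable [Fintype ι]
variable [FiniteResidues k F₁] [HasPrincipalDivisors k F₁] [Nonempty (Place k F₁)]
variable [FiniteResidues k F₂] [HasPrincipalDivisors k F₂] [Nonempty (Place k F₂)]

variable (k F₁ F₂ ι) in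
/-- the arithmetic genus of two curves glued along `#ι` nodes. -/
def gluedGenus : ℤ :=
  (genusFF k F₁ : ℤ) + genusFF k F₂ + Fintype.card ι + 1
    - Module.finrank k (riemannRochSpace (0 : Divisor k F₁))
    - Module.finrank k (riemannRochSpace (0 : Divisor k F₂))

/-- **Riemann's theorem for the glued spaces**: the glued dimension is `deg E₁ + deg E₂ + 1 - g`
as soon as BOTH degrees are large, for divisors avoiding the nodes. -/
theorem riemann_gluedSpace (hP : Function.Injective P) (hQ : Function.Injective Q)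
    (hdegP : ∀ j, (P j).deg = 1) (hdegQ : ∀ j, (Q j).deg = 1) :
    ∃ c : ℕ, ∀ (E₁ : Divisor k F₁) (E₂ : Divisor k F₂),
      (∀ j, E₁ (P j) = 0) → (∀ j, E₂ (Q j) = 0) →
      (c : ℤ) ≤ Divisor.degree E₁ → (c : ℤ) ≤ Divisor.degree E₂ →
      (Module.finrank k (gluedSpace P Q E₁ E₂) : ℤ) =
        Divisor.degree E₁ + Divisor.degree E₂ + 1 - gluedGenus k F₁ F₂ ι := by
  classical
  obtain ⟨c, hc⟩ := Fermat.Agent.GK.NodalFibre.exists_finrank_glueSub hP hQ hdegP hdegQ
  refine ⟨c.toNat, fun E₁ E₂ hE₁ hE₂ h1 h2 => ?_⟩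
  have hcc : c ≤ (c.toNat : ℤ) := Int.self_le_toNat c
  have d1 : Divisor.degree ((1 : ℕ) • E₁) = Divisor.degree E₁ := by rw [one_nsmul]
  have d2 : Divisor.degree ((1 : ℕ) • E₂) = Divisor.degree E₂ := by rw [one_nsmul]
  have l1 : c ≤ Divisor.degree ((1 : ℕ) • E₁) := by rw [d1]; exact le_trans hcc h1
  have l2 : c ≤ Divisor.degree ((1 : ℕ) • E₂) := by rw [d2]; exact le_trans hcc h2
  have key := (hc ((1 : ℕ) • E₁) ((1 : ℕ) • E₂) l1 l2).2 ∅ (fun _ => (1 : k))
  rw [gluedSpace_eq_T, finrank_T_eq_glueSub hdegP hdegQ hE₁ hE₂ 1, key, d1, d2,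
    Finset.card_empty, gluedGenus]
  push_cast
  ring

omit [Fintype ι] [FiniteResidues k F₁] [HasPrincipalDivisors k F₁] [Nonempty (Place k F₁)]
  [FiniteResidues k F₂] [HasPrincipalDivisors k F₂] [Nonempty (Place k F₂)] in
/-- a constant takes only its own value. -/
theorem eq_of_valueAt_algebraMap {K F : Type*} [Field K] [Field F] [Algebra K F] {v : Place K F}
    {a c : K} (h : ValueAt v (algebraMap K F a) c) : a = c := by
  unfold ValueAt at h
  rw [← map_sub, mem_ordGE] at h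
  by_contra hne
  have hne' : a - c ≠ 0 := sub_ne_zero.mpr hne
  rcases h with h | h
  · exact hne' ((map_eq_zero (algebraMap K F)).mp h)
  · rw [PlaceB.ord_algebraMap v hne'] at h
    omega

omit [Fintype ι] [Nonempty (Place k F₁)] [Nonempty (Place k F₂)] in
/-- **`l(0, 0) = 1`** on a nodal curve with at least one node: the only global functions are the
constants, and the two constants are glued at the node. -/
theorem finrank_gluedSpace_zero [Nonempty ι] (hdegP : ∀ j, (P j).deg = 1)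
    (hdegQ : ∀ j, (Q j).deg = 1) :
    Module.finrank k (gluedSpace P Q (0 : Divisor k F₁) (0 : Divisor k F₂)) = 1 := by
  obtain ⟨j⟩ := ‹Nonempty ι›
  have h1 := finrank_riemannRochSpace_zero (P j) (hdegP j)
  have h2 := finrank_riemannRochSpace_zero (Q j) (hdegQ j)
  have hone : (⟨1, one_mem_gluedSpace le_rfl le_rfl⟩ :
      gluedSpace P Q (0 : Divisor k F₁) (0 : Divisor k F₂)) ≠ 0 :=
    fun h => one_ne_zero (congrArg Subtype.val h)
  have hone1 : (⟨1, one_mem_riemannRochSpace le_rfl⟩ : riemannRochSpace (0 : Divisor k F₁)) ≠ 0 :=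
    fun h => one_ne_zero (congrArg Subtype.val h)
  have hone2 : (⟨1, one_mem_riemannRochSpace le_rfl⟩ : riemannRochSpace (0 : Divisor k F₂)) ≠ 0 :=
    fun h => one_ne_zero (congrArg Subtype.val h)
  rw [finrank_eq_one_iff_of_nonzero' _ hone]
  rintro ⟨z, hz⟩
  obtain ⟨a, ha⟩ := (finrank_eq_one_iff_of_nonzero' _ hone1).mp h1 ⟨z.1, hz.1⟩
  obtain ⟨b, hb⟩ := (finrank_eq_one_iff_of_nonzero' _ hone2).mp h2 ⟨z.2, hz.2.1⟩
  have ha' : z.1 = algebraMap k F₁ a := by
    have h : a • (1 : F₁) = z.1 := congrArg Subtype.val ha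
    rw [← h, Algebra.smul_def, mul_one]
  have hb' : z.2 = algebraMap k F₂ b := by
    have h : b • (1 : F₂) = z.2 := congrArg Subtype.val hb
    rw [← h, Algebra.smul_def, mul_one]
  obtain ⟨c, hc1, hc2⟩ := hz.2.2 j
  rw [ha'] at hc1
  rw [hb'] at hc2
  have e1 := eq_of_valueAt_algebraMap hc1
  have e2 := eq_of_valueAt_algebraMap hc2
  refine ⟨a, Subtype.ext (Prod.ext ?_ ?_)⟩
  · show a • (1 : F₁) = z.1
    rw [ha', Algebra.smul_def, mul_one]
  · show a • (1 : F₂) = z.2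
    rw [hb', Algebra.smul_def, mul_one, e1, e2]

omit [Nonempty (Place k F₁)] [Nonempty (Place k F₂)] in
/-- with at least one node (of degree one), the arithmetic genus is `g₁ + g₂ + #ι - 1`. -/
theorem gluedGenus_eq [Nonempty ι] (hdegP : ∀ j, (P j).deg = 1) (hdegQ : ∀ j, (Q j).deg = 1) :
    gluedGenus k F₁ F₂ ι = (genusFF k F₁ : ℤ) + genusFF k F₂ + Fintype.card ι - 1 := by
  obtain ⟨j⟩ := ‹Nonempty ι›
  rw [gluedGenus, finrank_riemannRochSpace_zero (P j) (hdegP j),
    finrank_riemannRochSpace_zero (Q j) (hdegQ j)]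
  push_cast
  ring

/-- **the binder `rr` of `exists_nonspecial_glued`**: Riemann's theorem for the glued spaces of
reduced divisors off finite sets `S₁ ⊇ {P j}`, `S₂ ⊇ {Q j}`. -/
theorem riemann_sumDiv (hP : Function.Injective P) (hQ : Function.Injective Q)
    (hdeg₁ : ∀ v : Place k F₁, v.deg = 1) (hdeg₂ : ∀ w : Place k F₂, w.deg = 1) :
    ∃ c : ℕ, ∀ (S₁ : Finset (Place k F₁)) (S₂ : Finset (Place k F₂)),
      (∀ j, P j ∈ S₁) → (∀ j, Q j ∈ S₂) →
      ∀ (T₁ : Finset (Place k F₁)) (T₂ : Finset (Place k F₂)), Disjoint T₁ S₁ →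
        Disjoint T₂ S₂ → c ≤ T₁.card → c ≤ T₂.card →
        (Module.finrank k (gluedSpace P Q (sumDiv T₁) (sumDiv T₂)) : ℤ) =
          T₁.card + T₂.card + 1 - gluedGenus k F₁ F₂ ι := by
  obtain ⟨c, hc⟩ := riemann_gluedSpace hP hQ (fun j => hdeg₁ (P j)) (fun j => hdeg₂ (Q j))
  refine ⟨c, fun S₁ S₂ hS₁ hS₂ T₁ T₂ hT₁ hT₂ h1 h2 => ?_⟩
  have hE₁ : ∀ j, sumDiv T₁ (P j) = 0 := fun j =>
    sumDiv_apply_of_notMem fun h => Finset.disjoint_left.mp hT₁ h (hS₁ j)
  have hE₂ : ∀ j, sumDiv T₂ (Q j) = 0 := fun j =>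
    sumDiv_apply_of_notMem fun h => Finset.disjoint_left.mp hT₂ h (hS₂ j)
  have := hc (sumDiv T₁) (sumDiv T₂) hE₁ hE₂
    (by rw [degree_sumDiv hdeg₁]; exact_mod_cast h1)
    (by rw [degree_sumDiv hdeg₂]; exact_mod_cast h2)
  rw [this, degree_sumDiv hdeg₁, degree_sumDiv hdeg₂]

/-- **chart supply on the nodal fibre, no binder left**: on two curves glued along `#ι ≥ 1` nodes
(all places of degree one, infinitely many places on both components), for every
`n ≤ gluedGenus` and every finite sets `S₁`, `S₂` of places there are finite sets `T₁`, `T₂` of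
places off `S₁`, `S₂` and off the nodes with `#T₁ + #T₂ = n` and glued `l(Σ T₁, Σ T₂) = 1`. -/
theorem exists_nonspecial_glued_of_nodes [Nonempty ι] [Infinite (Place k F₁)]
    [Infinite (Place k F₂)] (hP : Function.Injective P) (hQ : Function.Injective Q)
    (hdeg₁ : ∀ v : Place k F₁, v.deg = 1) (hdeg₂ : ∀ w : Place k F₂, w.deg = 1)
    (S₁ : Finset (Place k F₁)) (S₂ : Finset (Place k F₂)) (n : ℕ)
    (hn : (n : ℤ) ≤ gluedGenus k F₁ F₂ ι) :
    ∃ (T₁ : Finset (Place k F₁)) (T₂ : Finset (Place k F₂)), T₁.card + T₂.card = n ∧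
      Disjoint T₁ S₁ ∧ Disjoint T₂ S₂ ∧ (∀ j, P j ∉ T₁) ∧ (∀ j, Q j ∉ T₂) ∧
      Module.finrank k (gluedSpace P Q (sumDiv T₁) (sumDiv T₂)) = 1 := by
  classical
  obtain ⟨c, hc⟩ := riemann_sumDiv hP hQ hdeg₁ hdeg₂
  have hS₁ : ∀ j, P j ∈ S₁ ∪ Finset.univ.image P := fun j =>
    Finset.mem_union_right _ (Finset.mem_image_of_mem P (Finset.mem_univ j))
  have hS₂ : ∀ j, Q j ∈ S₂ ∪ Finset.univ.image Q := fun j =>
    Finset.mem_union_right _ (Finset.mem_image_of_mem Q (Finset.mem_univ j))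
  obtain ⟨T₁, T₂, hcard, hT₁, hT₂, hl⟩ :=
    exists_nonspecial_glued (P := P) (Q := Q) (S₁ ∪ Finset.univ.image P)
      (S₂ ∪ Finset.univ.image Q) (hc _ _ hS₁ hS₂)
      (finrank_gluedSpace_zero (fun j => hdeg₁ (P j)) (fun j => hdeg₂ (Q j))) n hn
  rw [Finset.disjoint_union_right] at hT₁ hT₂
  exact ⟨T₁, T₂, hcard, hT₁.1, hT₂.1,
    fun j h => Finset.disjoint_left.mp hT₁.2 h (Finset.mem_image_of_mem P (Finset.mem_univ j)),
    fun j h => Finset.disjoint_left.mp hT₂.2 h (Finset.mem_image_of_mem Q (Finset.mem_univ j)), hl⟩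

end GluedRiemann

end Fermat.Agent.GS.Nod
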