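/-
GATE-S (S33) / NODAL FRAME, special-fibre leaf for the existence of chart points (helper34): glued
pairs with EXACT orders at one point of each component, simultaneously.

* `exists_notMem_two`        : a subspace is not covered by two subspaces not containing it;
* `exists_glued_exact_both`  : for divisors `E₁`, `E₂` avoiding the nodes, of large degrees, and
  non-node places `q₁`, `q₂` of the two components there is `z ∈ gluedSpace P Q E₁ E₂` with
  `z.1 ≠ 0`, `ord_{q₁} z.1 = -E₁ q₁`, `z.2 ≠ 0`, `ord_{q₂} z.2 = -E₂ q₂`;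
* `exists_glued_param₁`, `exists_glued_param₂` : a glued pair with a SIMPLE ZERO at a given non-node
  place of one component, both components non-constant (the reduction of a chart parameter of the
  nodal frame).
-/
import Mathlib
import Fermat.Agent.GS.Nod.GluedRiemann

set_option autoImplicit false

noncomputable section

open AlgebraicCurve

namespace Fermat.Agent.GS.Nod

open Fermat.Agent.RRh45 Fermat.Agent.RR Fermat.Agent.GK.NodalGraded Fermat.Agent.S24
open Fermat.Agent.GH.G6 Fermat.Agent.GJ.S37MinDiv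

/-- a subspace is not covered by two subspaces none of which contains it. -/
theorem exists_notMem_two {k V : Type*} [Ring k] [AddCommGroup V] [Module k V]
    {W W₁ W₂ : Submodule k V} (h₁ : ¬ W ≤ W₁) (h₂ : ¬ W ≤ W₂) : ∃ z ∈ W, z ∉ W₁ ∧ z ∉ W₂ := by
  obtain ⟨a, haW, ha₁⟩ := SetLike.not_le_iff_exists.mp h₁
  obtain ⟨b, hbW, hb₂⟩ := SetLike.not_le_iff_exists.mp h₂
  by_cases ha₂ : a ∈ W₂
  · by_cases hb₁ : b ∈ W₁
    · refine ⟨a + b, W.add_mem haW hbW, fun h => ha₁ ?_, fun h => hb₂ ?_⟩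
      · have := W₁.sub_mem h hb₁
        rwa [add_sub_cancel_right] at this
      · have := W₂.sub_mem h ha₂
        rwa [add_sub_cancel_left] at this
    · exact ⟨b, hbW, hb₁, hb₂⟩
  · exact ⟨a, haW, ha₁, ha₂⟩

section Exact

variable {k F₁ F₂ : Type*} [Field k] [Field F₁] [Field F₂] [Algebra k F₁] [Algebra k F₂]
variable {ι : Type*} [Fintype ι]
variable {P : ι → Place k F₁} {Q : ι → Place k F₂}
variable [FiniteResidues k F₁] [HasPrincipalDivisors k F₁] [Nonempty (Place k F₁)]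
variable [FiniteResidues k F₂] [HasPrincipalDivisors k F₂] [Nonempty (Place k F₂)]

/-- **exact orders on both components**: a glued pair with exact pole orders at a non-node place
of each component. -/
theorem exists_glued_exact_both (hP : Function.Injective P) (hQ : Function.Injective Q)
    (hdeg₁ : ∀ v : Place k F₁, v.deg = 1) (hdeg₂ : ∀ w : Place k F₂, w.deg = 1) :
    ∃ c : ℕ, ∀ (E₁ : Divisor k F₁) (E₂ : Divisor k F₂),
      (∀ j, E₁ (P j) = 0) → (∀ j, E₂ (Q j) = 0) →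
      ∀ (q₁ : Place k F₁) (q₂ : Place k F₂), (∀ j, q₁ ≠ P j) → (∀ j, q₂ ≠ Q j) →
      (c : ℤ) ≤ Divisor.degree E₁ → (c : ℤ) ≤ Divisor.degree E₂ →
      ∃ z ∈ gluedSpace P Q E₁ E₂, z.1 ≠ 0 ∧ q₁.ord z.1 = -E₁ q₁ ∧ z.2 ≠ 0 ∧
        q₂.ord z.2 = -E₂ q₂ := by
  obtain ⟨c₀, hc₀⟩ := riemann_gluedSpace hP hQ (fun j => hdeg₁ (P j)) (fun j => hdeg₂ (Q j))
  refine ⟨c₀ + 1, fun E₁ E₂ hE₁ hE₂ q₁ q₂ hq₁ hq₂ h1 h2 => ?_⟩
  push_cast at h1 h2
  -- the three spaces
  have hE₁' : ∀ j, (E₁ - Finsupp.single q₁ (1 : ℤ) : Divisor k F₁) (P j) = 0 := fun j => by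
    rw [Finsupp.sub_apply, hE₁ j, Finsupp.single_eq_of_ne (hq₁ j).symm, sub_zero]
  have hE₂' : ∀ j, (E₂ - Finsupp.single q₂ (1 : ℤ) : Divisor k F₂) (Q j) = 0 := fun j => by
    rw [Finsupp.sub_apply, hE₂ j, Finsupp.single_eq_of_ne (hq₂ j).symm, sub_zero]
  have d1 : Divisor.degree (E₁ - Finsupp.single q₁ 1) = Divisor.degree E₁ - 1 := by
    rw [map_sub, Divisor.degree_single, hdeg₁]; norm_num
  have d2 : Divisor.degree (E₂ - Finsupp.single q₂ 1) = Divisor.degree E₂ - 1 := by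
    rw [map_sub, Divisor.degree_single, hdeg₂]; norm_num
  have r0 := hc₀ E₁ E₂ hE₁ hE₂ (by omega) (by omega)
  have r1 := hc₀ (E₁ - Finsupp.single q₁ 1) E₂ hE₁' hE₂ (by rw [d1]; omega) (by omega)
  have r2 := hc₀ E₁ (E₂ - Finsupp.single q₂ 1) hE₁ hE₂' (by omega) (by rw [d2]; omega)
  rw [d1] at r1
  rw [d2] at r2
  have hn1 : ¬ gluedSpace P Q E₁ E₂ ≤ gluedSpace P Q (E₁ - Finsupp.single q₁ 1) E₂ := fun hle => by
    have := Submodule.finrank_mono hle
    have : (Module.finrank k (gluedSpace P Q E₁ E₂) : ℤ) ≤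
        Module.finrank k (gluedSpace P Q (E₁ - Finsupp.single q₁ 1) E₂) := by exact_mod_cast this
    omega
  have hn2 : ¬ gluedSpace P Q E₁ E₂ ≤ gluedSpace P Q E₁ (E₂ - Finsupp.single q₂ 1) := fun hle => by
    have := Submodule.finrank_mono hle
    have : (Module.finrank k (gluedSpace P Q E₁ E₂) : ℤ) ≤
        Module.finrank k (gluedSpace P Q E₁ (E₂ - Finsupp.single q₂ 1)) := by exact_mod_cast this
    omega
  obtain ⟨z, hz, hz1, hz2⟩ := exists_notMem_two hn1 hn2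
  have hzL1 := hz.1
  have hzL2 := hz.2.1
  -- first component
  have h1' : z.1 ∉ riemannRochSpace (E₁ - Finsupp.single q₁ 1) := fun h => hz1 ⟨h, hz.2.1, hz.2.2⟩
  have h2' : z.2 ∉ riemannRochSpace (E₂ - Finsupp.single q₂ 1) := fun h => hz2 ⟨hz.1, h, hz.2.2⟩
  have hf0 : z.1 ≠ 0 := fun h0 => h1' (h0 ▸ zero_mem _)
  have hg0 : z.2 ≠ 0 := fun h0 => h2' (h0 ▸ zero_mem _)
  refine ⟨z, hz, hf0, ?_, hg0, ?_⟩
  · rw [mem_riemannRochSpace_iff] at hzL1 h1'
    push Not at h1'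
    obtain ⟨w, -, hw⟩ := h1'
    have hw' := (hzL1 w).resolve_left hf0
    by_cases hwq : w = q₁
    · subst hwq
      rw [Finsupp.sub_apply, Finsupp.single_eq_same] at hw
      omega
    · rw [Finsupp.sub_apply, Finsupp.single_eq_of_ne hwq] at hw
      omega
  · rw [mem_riemannRochSpace_iff] at hzL2 h2'
    push Not at h2'
    obtain ⟨w, -, hw⟩ := h2'
    have hw' := (hzL2 w).resolve_left hg0
    by_cases hwq : w = q₂
    · subst hwq
      rw [Finsupp.sub_apply, Finsupp.single_eq_same] at hw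
      omega
    · rw [Finsupp.sub_apply, Finsupp.single_eq_of_ne hwq] at hw
      omega

omit [Fintype ι] [FiniteResidues k F₁] [HasPrincipalDivisors k F₁] [Nonempty (Place k F₁)]
  [FiniteResidues k F₂] [HasPrincipalDivisors k F₂] [Nonempty (Place k F₂)] in
/-- a nonzero function whose order at some place is nonzero is not a constant. -/
theorem ne_algebraMap_of_ord_ne_zero {K F : Type*} [Field K] [Field F] [Algebra K F]
    {v : Place K F} {f : F} (hf : f ≠ 0) (hord : v.ord f ≠ 0) (a : K) : f ≠ algebraMap K F a := by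
  intro h
  by_cases ha : a = 0
  · exact hf (by rw [h, ha, map_zero])
  · exact hord (by rw [h, PlaceB.ord_algebraMap v ha])

/-- **the reduction of a chart parameter at a point of the first component**: a glued pair with a
simple zero at the non-node place `q`, both components non-constant. -/
theorem exists_glued_param₁ (hP : Function.Injective P) (hQ : Function.Injective Q)
    (hdeg₁ : ∀ v : Place k F₁, v.deg = 1) (hdeg₂ : ∀ w : Place k F₂, w.deg = 1) :
    ∃ c : ℕ, ∀ (E₁ : Divisor k F₁) (E₂ : Divisor k F₂),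
      (∀ j, E₁ (P j) = 0) → (∀ j, E₂ (Q j) = 0) →
      ∀ (q : Place k F₁) (r : Place k F₂), (∀ j, q ≠ P j) → (∀ j, r ≠ Q j) → E₁ q = 0 →
      0 < E₂ r → (c : ℤ) ≤ Divisor.degree E₁ → (c : ℤ) ≤ Divisor.degree E₂ →
      ∃ z ∈ gluedSpace P Q E₁ E₂, q.ord z.1 = 1 ∧ (∀ a : k, z.1 ≠ algebraMap k F₁ a) ∧
        (∀ a : k, z.2 ≠ algebraMap k F₂ a) := by
  obtain ⟨c, hc⟩ := exists_glued_exact_both hP hQ hdeg₁ hdeg₂
  refine ⟨c + 1, fun E₁ E₂ hE₁ hE₂ q r hq hr hE₁q hE₂r h1 h2 => ?_⟩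
  push_cast at h1 h2
  have hE₁' : ∀ j, (E₁ - Finsupp.single q (1 : ℤ) : Divisor k F₁) (P j) = 0 := fun j => by
    rw [Finsupp.sub_apply, hE₁ j, Finsupp.single_eq_of_ne (hq j).symm, sub_zero]
  have d1 : Divisor.degree (E₁ - Finsupp.single q 1) = Divisor.degree E₁ - 1 := by
    rw [map_sub, Divisor.degree_single, hdeg₁]; norm_num
  obtain ⟨z, hz, hf0, hf, hg0, hg⟩ := hc (E₁ - Finsupp.single q 1) E₂ hE₁' hE₂ q r hq hr
    (by rw [d1]; omega) (by omega)
  have hle : E₁ - Finsupp.single q 1 ≤ E₁ :=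
    sub_le_self _ (Finsupp.single_nonneg.mpr zero_le_one)
  rw [Finsupp.sub_apply, Finsupp.single_eq_same, hE₁q] at hf
  have hf1 : q.ord z.1 = 1 := by omega
  refine ⟨z, gluedSpace_mono hle le_rfl hz, hf1, ?_, ?_⟩
  · exact ne_algebraMap_of_ord_ne_zero (v := q) hf0 (by omega)
  · exact ne_algebraMap_of_ord_ne_zero (v := r) hg0 (by omega)

/-- **the reduction of a chart parameter at a point of the second component**. -/
theorem exists_glued_param₂ (hP : Function.Injective P) (hQ : Function.Injective Q)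
    (hdeg₁ : ∀ v : Place k F₁, v.deg = 1) (hdeg₂ : ∀ w : Place k F₂, w.deg = 1) :
    ∃ c : ℕ, ∀ (E₁ : Divisor k F₁) (E₂ : Divisor k F₂),
      (∀ j, E₁ (P j) = 0) → (∀ j, E₂ (Q j) = 0) →
      ∀ (q : Place k F₂) (r : Place k F₁), (∀ j, q ≠ Q j) → (∀ j, r ≠ P j) → E₂ q = 0 →
      0 < E₁ r → (c : ℤ) ≤ Divisor.degree E₁ → (c : ℤ) ≤ Divisor.degree E₂ →
      ∃ z ∈ gluedSpace P Q E₁ E₂, q.ord z.2 = 1 ∧ (∀ a : k, z.1 ≠ algebraMap k F₁ a) ∧
        (∀ a : k, z.2 ≠ algebraMap k F₂ a) := by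
  obtain ⟨c, hc⟩ := exists_glued_exact_both hP hQ hdeg₁ hdeg₂
  refine ⟨c + 1, fun E₁ E₂ hE₁ hE₂ q r hq hr hE₂q hE₁r h1 h2 => ?_⟩
  push_cast at h1 h2
  have hE₂' : ∀ j, (E₂ - Finsupp.single q (1 : ℤ) : Divisor k F₂) (Q j) = 0 := fun j => by
    rw [Finsupp.sub_apply, hE₂ j, Finsupp.single_eq_of_ne (hq j).symm, sub_zero]
  have d2 : Divisor.degree (E₂ - Finsupp.single q 1) = Divisor.degree E₂ - 1 := by
    rw [map_sub, Divisor.degree_single, hdeg₂]; norm_num
  obtain ⟨z, hz, hf0, hf, hg0, hg⟩ := hc E₁ (E₂ - Finsupp.single q 1) hE₁ hE₂' r q hr hq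
    (by omega) (by rw [d2]; omega)
  have hle : E₂ - Finsupp.single q 1 ≤ E₂ :=
    sub_le_self _ (Finsupp.single_nonneg.mpr zero_le_one)
  rw [Finsupp.sub_apply, Finsupp.single_eq_same, hE₂q] at hg
  have hg1 : q.ord z.2 = 1 := by omega
  refine ⟨z, gluedSpace_mono le_rfl hle hz, hg1, ?_, ?_⟩
  · exact ne_algebraMap_of_ord_ne_zero (v := r) hf0 (by omega)
  · exact ne_algebraMap_of_ord_ne_zero (v := q) hg0 (by omega)

end Exact

end Fermat.Agent.GS.Nod
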